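/-
S36lib / R2 / PushHeckeBetaDvd  (helper1)   -- block R2 of S36, function level, `β`-part

The push-forward `β_* : J₀(N q) → J₀(N)` for a prime `q ∣ N` commutes with the Hecke operators
`T_ℓ`, `ℓ ∤ N q`, on Kummer representatives: the FUNCTION IDENTITY

  `Norm_β (normStd (N q) ℓ f) = normStd N ℓ (Norm_β f)`      in `FBar N`, for `f ∈ FBar (N q)`.

No Atkin–Lehner involution is needed: with `B_j = (1 j; 0 q)` (`j ∈ ℤ/q`, the conjugates along `β`)
and `h_y` (`y ∈ P¹(𝔽_ℓ)`, the representatives of `T_ℓ`) both double products are products of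
`F ∘ (upper triangular matrix)`:
`h_i B_j = (1, j + i q; 0, q ℓ)`, `B_j h_i = (1, i + j ℓ; 0, q ℓ)` (two mixed-radix enumerations of
`ℤ/qℓ`), and `h_∞ B_j = T^t B_{ℓ j} h_∞`.
-/
import Mathlib
import Fermat.Agent.S29lib.H.BetaNorm
import Fermat.Agent.S29lib.H.HeckeNorm

set_option autoImplicit false
set_option linter.style.haveILetI false
set_option linter.unusedSectionVars false

noncomputable section

namespace Fermat.Agent.S36lib.R2

open UpperHalfPlane Polynomial Matrix.SpecialLinearGroup Fermat.Agent.ProgramR Module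
  CongruenceSubgroup ModularForm ModularCurve
open Fermat.Agent.ProgramR.BarField
open Fermat.Agent.S16lib.LH Fermat.Agent.S29lib.H
open P2MW.S_ModularForm_heckeT_slash_eq_self_of_mem_Gamma0.ModularForm.HeckeSlashInvariance
open scoped MatrixGroups

/-! ### Mixed-radix enumeration of `ℤ/ab` -/

section Mixed

variable {M : Type*} [CommMonoid M]

theorem prod_zmod_val (n : ℕ) [NeZero n] (G : ℕ → M) :
    ∏ m : ZMod n, G m.val = ∏ m ∈ Finset.range n, G m := by
  refine Finset.prod_bij (fun m _ => m.val) (fun m _ => Finset.mem_range.2 (ZMod.val_lt m))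
    (fun m _ m' _ h => ZMod.val_injective n h) (fun m hm => ?_) (fun m _ => rfl)
  exact ⟨(m : ZMod n), Finset.mem_univ _, ZMod.val_natCast_of_lt (Finset.mem_range.1 hm)⟩

theorem mixed_lt {a b : ℕ} [NeZero a] [NeZero b] (x : ZMod a) (y : ZMod b) :
    x.val + y.val * a < a * b := by
  have hx := ZMod.val_lt x
  have hy := ZMod.val_lt y
  calc x.val + y.val * a < a + y.val * a := by omega
    _ = (y.val + 1) * a := by ring
    _ ≤ b * a := Nat.mul_le_mul_right a hy
    _ = a * b := Nat.mul_comm b a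

theorem prod_mixed (a b : ℕ) [NeZero a] [NeZero b] (G : ℕ → M) :
    ∏ x : ZMod a, ∏ y : ZMod b, G (x.val + y.val * a) = ∏ m ∈ Finset.range (a * b), G m := by
  haveI : NeZero (a * b) := ⟨Nat.mul_ne_zero (NeZero.ne a) (NeZero.ne b)⟩
  rw [← prod_zmod_val (a * b) G]
  refine (Fintype.prod_prod_type'
    (fun (x : ZMod a) (y : ZMod b) => G (x.val + y.val * a))).symm.trans ?_
  set φ : ZMod a × ZMod b → ZMod (a * b) := fun p => ((p.1.val + p.2.val * a : ℕ) : ZMod (a * b))
    with hφ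
  have hval : ∀ p, (φ p).val = p.1.val + p.2.val * a := fun p =>
    ZMod.val_natCast_of_lt (mixed_lt p.1 p.2)
  have ha : 0 < a := Nat.pos_of_ne_zero (NeZero.ne a)
  have hinj : Function.Injective φ := by
    rintro ⟨x, y⟩ ⟨x', y'⟩ h
    have h1 : x.val + y.val * a = x'.val + y'.val * a := by
      rw [← hval (x, y), ← hval (x', y'), h]
    have hx := ZMod.val_lt x
    have hx' := ZMod.val_lt x'
    have h2 : x.val = x'.val := by
      have e1 : (x.val + y.val * a) % a = x.val := by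
        rw [Nat.add_mul_mod_self_right, Nat.mod_eq_of_lt hx]
      have e2 : (x'.val + y'.val * a) % a = x'.val := by
        rw [Nat.add_mul_mod_self_right, Nat.mod_eq_of_lt hx']
      rw [← e1, ← e2, h1]
    have h3 : y.val = y'.val := by
      have : y.val * a = y'.val * a := by omega
      exact Nat.eq_of_mul_eq_mul_right ha this
    rw [Prod.mk.injEq]
    exact ⟨ZMod.val_injective a h2, ZMod.val_injective b h3⟩
  have hbij : Function.Bijective φ := by
    rw [Fintype.bijective_iff_injective_and_card]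
    exact ⟨hinj, by rw [Fintype.card_prod, ZMod.card, ZMod.card, ZMod.card]⟩
  exact Fintype.prod_bijective φ hbij _ _ fun p => by rw [hval p]

end Mixed

/-! ### Möbius actions of products of upper triangular matrices -/

section Moebius

theorem coe_heckeMatrix_mul_smul {a b : ℕ} (ha : a ≠ 0) (hb : b ≠ 0) (i j : ℕ) (z : ℍ) :
    (((heckeMatrix a i * heckeMatrix b j) • z : ℍ) : ℂ) =
      ((heckeMatrix (b * a) (j + i * b) • z : ℍ) : ℂ) := by
  rw [mul_smul, coe_heckeMatrix_smul ha, coe_heckeMatrix_smul hb,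
    coe_heckeMatrix_smul (Nat.mul_ne_zero hb ha)]
  have ha' : (a : ℂ) ≠ 0 := by exact_mod_cast ha
  have hb' : (b : ℂ) ≠ 0 := by exact_mod_cast hb
  push_cast
  field_simp
  ring

theorem heckeMatrix_mul_smul {a b : ℕ} (ha : a ≠ 0) (hb : b ≠ 0) (i j : ℕ) (z : ℍ) :
    (heckeMatrix a i * heckeMatrix b j) • z = heckeMatrix (b * a) (j + i * b) • z :=
  UpperHalfPlane.ext (coe_heckeMatrix_mul_smul ha hb i j z)

/-- `h_∞ B_j = T^t B_{j'} h_∞` when `ℓ j = j' + t q` -/
theorem heckeDiag_mul_heckeMatrix_smul {ℓ q : ℕ} (hℓ : ℓ ≠ 0) (hq : q ≠ 0) (j j' : ℕ) (t : ℤ)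
    (h : (ℓ : ℤ) * j = j' + t * q) (z : ℍ) :
    (heckeDiagMatrix ℓ * heckeMatrix q j) • z =
      ((mapGL ℝ (ModularGroup.T ^ t) : GL (Fin 2) ℝ) * (heckeMatrix q j' * heckeDiagMatrix ℓ)) • z := by
  apply UpperHalfPlane.ext
  rw [mul_smul, mul_smul, mul_smul]
  show _ = ((ModularGroup.T ^ t • (heckeMatrix q j' • (heckeDiagMatrix ℓ • z)) : ℍ) : ℂ)
  rw [ModularGroup.coe_T_zpow_smul_eq, coe_heckeDiagMatrix_smul hℓ, coe_heckeMatrix_smul hq,
    coe_heckeMatrix_smul hq, coe_heckeDiagMatrix_smul hℓ]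
  have hq' : (q : ℂ) ≠ 0 := by exact_mod_cast hq
  have h' : (ℓ : ℂ) * j = j' + t * q := by exact_mod_cast h
  field_simp
  linear_combination h'

end Moebius

/-! ### The swap for `β` -/

section Swap

variable {N q ℓ : ℕ} [NeZero N] [Fact q.Prime] [Fact ℓ.Prime]

theorem heckeRep_det_pos' (y : OnePoint (ZMod ℓ)) : 0 < (heckeRep ℓ y).det.val :=
  haveI : NeZero ℓ := ⟨(Fact.out : ℓ.Prime).ne_zero⟩
  (isIntMat_heckeRep ℓ y).det_pos

theorem heckeMatrix_det_pos (n m : ℕ) [NeZero n] : 0 < (heckeMatrix n m).det.val :=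
  (isIntMat_heckeMatrix n m).det_pos

/-- the two double products of conjugates coincide (`β`-version) -/
theorem prod_swap_beta (hqℓ : q ≠ ℓ) (k : WH0.FunField (Gamma0 (N * q))) :
    haveI : NeZero q := ⟨(Fact.out : q.Prime).ne_zero⟩
    ∏ j : ZMod q, merComp (heckeMatrix q j.val) (heckeMatrix_det_pos q j.val)
        (∏ y : OnePoint (ZMod ℓ), merComp (heckeRep ℓ y) (heckeRep_det_pos' y)
          (toMer (Gamma0 (N * q)) k)) =
      ∏ y : OnePoint (ZMod ℓ), merComp (heckeRep ℓ y) (heckeRep_det_pos' y)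
        (∏ j : ZMod q, merComp (heckeMatrix q j.val) (heckeMatrix_det_pos q j.val)
          (toMer (Gamma0 (N * q)) k)) := by
  haveI : NeZero q := ⟨(Fact.out : q.Prime).ne_zero⟩
  haveI : NeZero ℓ := ⟨(Fact.out : ℓ.Prime).ne_zero⟩
  haveI : NeZero (q * ℓ) := ⟨Nat.mul_ne_zero (NeZero.ne q) (NeZero.ne ℓ)⟩
  have hq0 : q ≠ 0 := NeZero.ne q
  have hℓ0 : ℓ ≠ 0 := NeZero.ne ℓ
  set F : Mer := toMer (Gamma0 (N * q)) k with hF
  -- the function `F((z + m) / (q ℓ))`
  set G : ℕ → Mer := fun m => merComp (heckeMatrix (q * ℓ) m) (heckeMatrix_det_pos (q * ℓ) m) F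
    with hG
  -- expand both sides
  set P : ZMod q → OnePoint (ZMod ℓ) → Mer := fun j y =>
    merComp (heckeRep ℓ y * heckeMatrix q j.val)
      (det_pos_mul (heckeRep_det_pos' y) (heckeMatrix_det_pos q j.val)) F with hP
  set Q : OnePoint (ZMod ℓ) → ZMod q → Mer := fun y j =>
    merComp (heckeMatrix q j.val * heckeRep ℓ y)
      (det_pos_mul (heckeMatrix_det_pos q j.val) (heckeRep_det_pos' y)) F with hQ
  have hL : ∀ j : ZMod q, merComp (heckeMatrix q j.val) (heckeMatrix_det_pos q j.val)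
      (∏ y : OnePoint (ZMod ℓ), merComp (heckeRep ℓ y) (heckeRep_det_pos' y) F) =
      ∏ y : OnePoint (ZMod ℓ), P j y := by
    intro j
    rw [map_prod]
    exact Finset.prod_congr rfl fun y _ => merComp_comp _ _ F
  have hR : ∀ y : OnePoint (ZMod ℓ), merComp (heckeRep ℓ y) (heckeRep_det_pos' y)
      (∏ j : ZMod q, merComp (heckeMatrix q j.val) (heckeMatrix_det_pos q j.val) F) =
      ∏ j : ZMod q, Q y j := by
    intro y
    rw [map_prod]
    exact Finset.prod_congr rfl fun j _ => merComp_comp _ _ F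
  -- the pieces
  have hA : ∀ (j : ZMod q) (i : ZMod ℓ), P j (i : OnePoint (ZMod ℓ)) = G (j.val + i.val * q) := by
    intro j i
    exact DFunLike.congr_fun (merComp_congr _ _ fun z => by
      show (heckeMatrix ℓ i.val * heckeMatrix q j.val) • z = _
      exact heckeMatrix_mul_smul hℓ0 hq0 i.val j.val z) F
  have hB : ∀ (i : ZMod ℓ) (j : ZMod q), Q (i : OnePoint (ZMod ℓ)) j = G (i.val + j.val * ℓ) := by
    intro i j
    have e : heckeMatrix (ℓ * q) (i.val + j.val * ℓ) = heckeMatrix (q * ℓ) (i.val + j.val * ℓ) := by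
      rw [Nat.mul_comm]
    exact DFunLike.congr_fun (merComp_congr _ _ fun z => by
      show (heckeMatrix q j.val * heckeMatrix ℓ i.val) • z = _
      rw [heckeMatrix_mul_smul hq0 hℓ0 j.val i.val z, e]) F
  have hunit : IsUnit ((ℓ : ZMod q)) := by
    rw [ZMod.isUnit_iff_coprime]
    exact (Nat.coprime_primes Fact.out Fact.out).2 (Ne.symm hqℓ)
  have hC : ∀ j : ZMod q, P j OnePoint.infty = Q OnePoint.infty ((ℓ : ZMod q) * j) := by
    intro j
    set j' : ZMod q := (ℓ : ZMod q) * j with hj'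
    have hdvd : (q : ℤ) ∣ (ℓ : ℤ) * (j.val : ℤ) - (j'.val : ℤ) := by
      rw [← ZMod.intCast_zmod_eq_zero_iff_dvd]
      push_cast
      rw [ZMod.natCast_zmod_val, ZMod.natCast_zmod_val, hj', sub_self]
    obtain ⟨t, ht⟩ := hdvd
    have hrel : ∀ z : ℍ, (heckeRep ℓ (OnePoint.infty : OnePoint (ZMod ℓ)) * heckeMatrix q j.val) • z =
        ((mapGL ℝ (ModularGroup.T ^ t) : GL (Fin 2) ℝ) *
          (heckeMatrix q j'.val * heckeRep ℓ (OnePoint.infty : OnePoint (ZMod ℓ)))) • z := by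
      intro z
      show (heckeDiagMatrix ℓ * heckeMatrix q j.val) • z =
        ((mapGL ℝ (ModularGroup.T ^ t) : GL (Fin 2) ℝ) *
          (heckeMatrix q j'.val * heckeDiagMatrix ℓ)) • z
      exact heckeDiag_mul_heckeMatrix_smul hℓ0 hq0 j.val j'.val t (by linear_combination ht) z
    have hT : (ModularGroup.T ^ t : SL(2, ℤ)) ∈ Gamma0 (N * q) :=
      Subgroup.zpow_mem _ (T_mem_Gamma0 (N * q)) _
    show merComp _ _ F = merComp _ _ F
    rw [DFunLike.congr_fun (merComp_congr _ (det_pos_mul (isIntMat_mapGL _).det_pos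
        (det_pos_mul (heckeMatrix_det_pos q j'.val)
          (heckeRep_det_pos' (OnePoint.infty : OnePoint (ZMod ℓ))))) hrel) F,
      ← merComp_comp (isIntMat_mapGL _).det_pos (det_pos_mul (heckeMatrix_det_pos q j'.val)
          (heckeRep_det_pos' (OnePoint.infty : OnePoint (ZMod ℓ)))), hF,
      merComp_toMer_of_mem (Gamma0 (N * q)) hT k]
  -- assembly
  calc ∏ j : ZMod q, merComp (heckeMatrix q j.val) (heckeMatrix_det_pos q j.val)
        (∏ y : OnePoint (ZMod ℓ), merComp (heckeRep ℓ y) (heckeRep_det_pos' y) F)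
      = ∏ j : ZMod q, ∏ y : OnePoint (ZMod ℓ), P j y := Finset.prod_congr rfl fun j _ => hL j
    _ = ∏ j : ZMod q, (P j OnePoint.infty * ∏ i : ZMod ℓ, P j (i : OnePoint (ZMod ℓ))) :=
        Finset.prod_congr rfl fun j _ => Fintype.prod_option (P j)
    _ = (∏ j : ZMod q, P j OnePoint.infty) *
          ∏ j : ZMod q, ∏ i : ZMod ℓ, P j (i : OnePoint (ZMod ℓ)) := Finset.prod_mul_distrib
    _ = (∏ j : ZMod q, Q OnePoint.infty j) *
          ∏ i : ZMod ℓ, ∏ j : ZMod q, Q (i : OnePoint (ZMod ℓ)) j := by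
        congr 1
        · exact Fintype.prod_equiv hunit.unit.mulLeft _ _ fun j => hC j
        · rw [Finset.prod_congr rfl fun j _ => Finset.prod_congr rfl fun i _ => hA j i,
            Finset.prod_congr rfl fun i _ => Finset.prod_congr rfl fun j _ => hB i j,
            prod_mixed q ℓ G, prod_mixed ℓ q G, Nat.mul_comm ℓ q]
    _ = ∏ y : OnePoint (ZMod ℓ), ∏ j : ZMod q, Q y j :=
        (Fintype.prod_option (fun y => ∏ j : ZMod q, Q y j)).symm
    _ = ∏ y : OnePoint (ZMod ℓ), merComp (heckeRep ℓ y) (heckeRep_det_pos' y)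
        (∏ j : ZMod q, merComp (heckeMatrix q j.val) (heckeMatrix_det_pos q j.val) F) :=
        Finset.prod_congr rfl fun y _ => (hR y).symm

end Swap

/-! ### The norm identity along `β`, `q ∣ N` -/

section Norm

variable {N q ℓ : ℕ} [NeZero N] [Fact q.Prime] [Fact ℓ.Prime] (hqN : q ∣ N) (hℓN : ¬ ℓ ∣ N)
  (hℓNq : ¬ ℓ ∣ N * q)

variable {L : Type*} [Field L] [Algebra ℚ L] (e : L →+* ℂ)

include hqN hℓN hℓNq e in
/-- **`Norm_β ∘ (Kummer representative of T_ℓ at level N q) =
(Kummer representative of T_ℓ at level N) ∘ Norm_β`, `q ∣ N`.** -/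
theorem norm_beta_norm_alpha_beta_dvd (f : FBar L (N * q)) :
    haveI : NeZero ℓ := ⟨(Fact.out : ℓ.Prime).ne_zero⟩
    haveI : NeZero q := ⟨(Fact.out : q.Prime).ne_zero⟩
    @Algebra.norm (FBar L N) (FBar L (N * q)) _ _ (heckeBetaBar L N q).toRingHom.toAlgebra
        (@Algebra.norm (FBar L (N * q)) (FBar L (N * q * ℓ)) _ _
          (heckeAlphaBar L (N * q) ℓ).toRingHom.toAlgebra (heckeBetaBar L (N * q) ℓ f)) =
      @Algebra.norm (FBar L N) (FBar L (N * ℓ)) _ _ (heckeAlphaBar L N ℓ).toRingHom.toAlgebra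
        (heckeBetaBar L N ℓ
          (@Algebra.norm (FBar L N) (FBar L (N * q)) _ _
            (heckeBetaBar L N q).toRingHom.toAlgebra f)) := by
  haveI : NeZero ℓ := ⟨(Fact.out : ℓ.Prime).ne_zero⟩
  haveI : NeZero q := ⟨(Fact.out : q.Prime).ne_zero⟩
  have hqℓ : q ≠ ℓ := fun h => hℓNq (h ▸ Dvd.intro_left N rfl)
  have hinj : Function.Injective ((toMer (Gamma0 N)).comp (ΦBar N e)) :=
    ((toMer (Gamma0 N)).comp (ΦBar N e)).injective
  apply hinj
  show toMer (Gamma0 N) (ΦBar N e _) = toMer (Gamma0 N) (ΦBar N e _)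
  rw [toMer_norm_beta hqN e, toMer_norm_alpha_beta e hℓN, toMer_norm_beta hqN e f,
    toMer_norm_alpha_beta e hℓNq f]
  exact prod_swap_beta hqℓ (ΦBar (N * q) e f)

end Norm

end Fermat.Agent.S36lib.R2
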