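/-
S36lib / R2 / PushHeckeJDvd  (helper1)   -- block R2 of S36, J-level

For a prime `q ∣ N` the push-forwards `α_*, β_* : J₀(N q) → J₀(N)` commute with the Hecke operators
`TJ ℓ`, `ℓ ∤ N q`, on torsion classes:  `α_* (TJ ℓ x) = TJ ℓ (α_* x)`, `β_* (TJ ℓ x) = TJ ℓ (β_* x)`.
(`pushA`, `pushB`, `kummerRel_pushA`, `kummerRel_pushB` are helper5's, `S35lib/New/PushHeckeJ(B)`;
they are defined for every level.)
-/
import Mathlib
import Fermat.Agent.S36lib.R2.PushHeckeDvd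
import Fermat.Agent.S36lib.R2.PushHeckeBetaDvd
import Fermat.Agent.S35lib.New.PushHeckeJB
import Fermat.Agent.S35lib.Interface

set_option autoImplicit false
set_option linter.style.haveILetI false
set_option linter.unusedSectionVars false

noncomputable section

namespace Fermat.Agent.S36lib.R2

open AlgebraicCurve ModularCurve
open Fermat.Agent.S29lib Fermat.Agent.S29lib.D Fermat.Agent.S37lib.HeckeInst
open Fermat.Agent.ProgramR.BarField Fermat.Agent.S35lib.New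

/-- `ℚ̄` -/
local notation "Qb" => AlgebraicClosure ℚ

/-- helper5's `pushA` is helper8's `pushAlpha` -/
theorem pushA_eq_pushAlpha (N q : ℕ) [NeZero N] [NeZero q] :
    pushA N q = Fermat.Agent.S35lib.pushAlpha N q := rfl

/-- helper5's `pushB` is helper8's `pushBeta` -/
theorem pushB_eq_pushBeta (N q : ℕ) [NeZero N] [NeZero q] :
    pushB N q = Fermat.Agent.S35lib.pushBeta N q := rfl

section Comm

variable {N q : ℕ} [NeZero N] [Fact q.Prime] (hqN : q ∣ N)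

include hqN in
/-- **`α_* ∘ TJ ℓ = TJ ℓ ∘ α_*` on torsion classes, `ℓ ∤ N q`, `q ∣ N`.** -/
theorem pushA_TJ_dvd (ℓ : Nat.Primes) (hℓ : ¬ (ℓ : ℕ) ∣ N * q) {n : ℕ} (hn : 0 < n)
    (x : JZero (N * q)) (hx : (n : ℤ) • x = 0) :
    haveI : NeZero q := ⟨(Fact.out : q.Prime).ne_zero⟩
    pushA N q (H.TJ (N * q) ℓ x) = H.TJ N ℓ (pushA N q x) := by
  haveI : NeZero q := ⟨(Fact.out : q.Prime).ne_zero⟩
  haveI : Fact (ℓ : ℕ).Prime := ⟨ℓ.2⟩
  haveI : NeZero (ℓ : ℕ) := ⟨ℓ.2.ne_zero⟩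
  have hℓN : ¬ (ℓ : ℕ) ∣ N := fun h => hℓ (Dvd.dvd.mul_right h q)
  obtain ⟨f, hf⟩ := exists_kummerRel hx
  have h1 := kummerRel_pushA N q (kummerRel_TJ (N * q) ℓ hf)
  rw [normTJ_of_not_dvd (N * q) hℓ] at h1
  have h2 := kummerRel_TJ N ℓ (kummerRel_pushA N q hf)
  rw [normTJ_of_not_dvd N hℓN] at h2
  have key : normAlong (heckeAlphaBar Qb N q) (normStd (N * q) ℓ f) =
      normStd N ℓ (normAlong (heckeAlphaBar Qb N q) f) :=
    norm_alpha_norm_alpha_beta_dvd hqN hℓN hℓ qbarEmb f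
  rw [key] at h1
  exact KummerRel_class_unique hn h1 h2

include hqN in
/-- **`β_* ∘ TJ ℓ = TJ ℓ ∘ β_*` on torsion classes, `ℓ ∤ N q`, `q ∣ N`.** -/
theorem pushB_TJ_dvd (ℓ : Nat.Primes) (hℓ : ¬ (ℓ : ℕ) ∣ N * q) {n : ℕ} (hn : 0 < n)
    (x : JZero (N * q)) (hx : (n : ℤ) • x = 0) :
    haveI : NeZero q := ⟨(Fact.out : q.Prime).ne_zero⟩
    pushB N q (H.TJ (N * q) ℓ x) = H.TJ N ℓ (pushB N q x) := by
  haveI : NeZero q := ⟨(Fact.out : q.Prime).ne_zero⟩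
  haveI : Fact (ℓ : ℕ).Prime := ⟨ℓ.2⟩
  haveI : NeZero (ℓ : ℕ) := ⟨ℓ.2.ne_zero⟩
  have hℓN : ¬ (ℓ : ℕ) ∣ N := fun h => hℓ (Dvd.dvd.mul_right h q)
  obtain ⟨f, hf⟩ := exists_kummerRel hx
  have h1 := kummerRel_pushB N q (kummerRel_TJ (N * q) ℓ hf)
  rw [normTJ_of_not_dvd (N * q) hℓ] at h1
  have h2 := kummerRel_TJ N ℓ (kummerRel_pushB N q hf)
  rw [normTJ_of_not_dvd N hℓN] at h2
  have key : normAlong (heckeBetaBar Qb N q) (normStd (N * q) ℓ f) =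
      normStd N ℓ (normAlong (heckeBetaBar Qb N q) f) :=
    norm_beta_norm_alpha_beta_dvd hqN hℓN hℓ qbarEmb f
  rw [key] at h1
  exact KummerRel_class_unique hn h1 h2

end Comm

end Fermat.Agent.S36lib.R2
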