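/-
S36lib / R2 / KillerDvd  (helper1)   -- block R2 of S36: assembly

For a prime `q`, a level `N` (`q ∣ N` allowed and intended: `N q = M q²`), `g` a newform of level
`N q` and a prime `p`:

* `exists_killer_dvd` : helper3's Hecke killer (`S35lib/New/Killer.exists_killer`) without the
  hypothesis `q ∤ N` (which its proof never used): a noncommutative integer polynomial `P` in the
  `T_ℓ`, `ℓ ∤ N q`, with `P(a_ℓ(g)) ≠ 0` and `P(T) = 0` on `S₂(Γ₀(N))`;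
* `exists_qNew_killer_dvd` : for `q ∣ N`: for every `x ∈ J₀(N q)[p^k]` the class `P(T) x` is `q`-new
  (`α_* (P(T) x) = 0 = β_* (P(T) x)`);
* `lift_TJ_smul` : `P(T)` commutes with `G_ℚ`;
* `inertiaKillAt_of_inertiaNewTors` : **(C36) ⇒ (IKILL) at `q`**:
  `InertiaNewTors N q p → InertiaKillAt (N q) p q g` (helper3's interface `S36lib/KillInterface36`).
-/
import Mathlib
import Fermat.Agent.S36lib.R2.PushHeckeJDvd
import Fermat.Agent.S36lib.Xfer.QNewDvd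
import Fermat.Agent.S36lib.KillInterface36
import Fermat.Agent.S35lib.New.Main
import Fermat.Agent.S29lib.GH.HeckeGalois

set_option autoImplicit false
set_option linter.style.haveILetI false
set_option linter.unusedSectionVars false
set_option linter.unusedVariables false

noncomputable section

namespace Fermat.Agent.S36lib.R2

open ModularCurve CongruenceSubgroup ModularFormClass CuspForm Module
open Fermat.Agent.S29lib Fermat.Agent.S35lib Fermat.Agent.S35lib.New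
open Fermat.Agent.S16lib.LG

/-- `ℚ̄` -/
local notation "Qb" => AlgebraicClosure ℚ
/-- `G_ℚ` -/
local notation "GQ" => (AlgebraicClosure ℚ ≃ₐ[ℚ] AlgebraicClosure ℚ)

/-! ### The Hecke killer, any lower level -/

/-- **The Hecke killer** (helper3's `exists_killer`, without `q ∤ N`). -/
theorem exists_killer_dvd {N q : ℕ} [NeZero N] [NeZero (N * q)] (hq : q.Prime)
    {g : CuspForm (Gamma0 (N * q)) 2} (hg : g.IsNewform) :
    ∃ P : FreeAlgebra ℤ {ℓ : Nat.Primes // ¬ (ℓ : ℕ) ∣ N * q},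
      FreeAlgebra.lift ℤ (fun ℓ : {ℓ : Nat.Primes // ¬ (ℓ : ℕ) ∣ N * q} =>
        qCoeff g (ℓ.1 : ℕ)) P ≠ 0 ∧
      FreeAlgebra.lift ℤ (fun ℓ : {ℓ : Nat.Primes // ¬ (ℓ : ℕ) ∣ N * q} =>
        H.heckeS2 N ℓ.1) P = 0 := by
  by_contra hne
  have hH : ∀ P : FreeAlgebra ℤ {ℓ : Nat.Primes // ¬ (ℓ : ℕ) ∣ N * q},
      FreeAlgebra.lift ℤ (fun ℓ : {ℓ : Nat.Primes // ¬ (ℓ : ℕ) ∣ N * q} =>
        H.heckeS2 N ℓ.1) P = 0 →
      FreeAlgebra.lift ℤ (fun ℓ : {ℓ : Nat.Primes // ¬ (ℓ : ℕ) ∣ N * q} =>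
        qCoeff g (ℓ.1 : ℕ)) P = 0 := by
    intro P hP
    by_contra h
    exact hne ⟨P, h, hP⟩
  have hndvd : ∀ ℓ : {ℓ : Nat.Primes // ¬ (ℓ : ℕ) ∣ N * q}, ¬ ((ℓ.1 : Nat.Primes) : ℕ) ∣ N :=
    fun ℓ h => ℓ.2 (Dvd.dvd.mul_right h q)
  have : FiniteDimensional ℂ (CuspForm (Gamma0 N) 2) :=
    Fermat.Agent.ProgramR.ES.finiteDimensional_cuspForm N
  have hcomm : ∀ i j : {ℓ : Nat.Primes // ¬ (ℓ : ℕ) ∣ N * q},
      H.heckeS2 N i.1 * H.heckeS2 N j.1 = H.heckeS2 N j.1 * H.heckeS2 N i.1 := by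
    intro i j
    rw [H.heckeS2_of_not_dvd N (hndvd i), H.heckeS2_of_not_dvd N (hndvd j)]
    exact (heckeTLin_comm 2 i.1.2 (hndvd i) j.1.2 (hndvd j)).eq
  let b : Basis (Fin (Module.finrank ℤ ↥(VZ (Gamma0 N)))) ℤ ↥(VZ (Gamma0 N)) :=
    Module.finBasis ℤ ↥(VZ (Gamma0 N))
  obtain ⟨v, hv, hvT⟩ := killer_exists_eigenvector
    (fun ℓ : {ℓ : Nat.Primes // ¬ (ℓ : ℕ) ∣ N * q} => H.heckeS2 N ℓ.1)
    (fun ℓ : {ℓ : Nat.Primes // ¬ (ℓ : ℕ) ∣ N * q} => H.tMat b ℓ.1)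
    (H.coordEquiv N b) hcomm (fun i c => H.coordEquiv_tMat N b i.1 c)
    (fun ℓ : {ℓ : Nat.Primes // ¬ (ℓ : ℕ) ∣ N * q} => qCoeff g (ℓ.1 : ℕ)) hH
  obtain ⟨g', hg', hval⟩ := killer_exists_normalizedEigenform (M := N)
    {ℓ : ℕ | ¬ ℓ ∣ N * q} (fun ℓ => qCoeff g ℓ) v hv (by
      intro ℓ hℓ hℓM hℓP
      have := hvT ⟨⟨ℓ, hℓ⟩, hℓP⟩
      rw [H.heckeS2_of_not_dvd N (show ¬ ((⟨ℓ, hℓ⟩ : Nat.Primes) : ℕ) ∣ N from hℓM)] at this
      exact this)
  refine hg.2 N (Dvd.intro q rfl) ?_ ⟨g', hg', fun ℓ hℓ hℓN => ?_⟩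
  · intro h
    have h1 : N * 1 = N * q := by rw [mul_one]; exact h
    have h2 := Nat.eq_of_mul_eq_mul_left (Nat.pos_of_ne_zero (NeZero.ne N)) h1
    exact hq.one_lt.ne h2
  · exact hval ℓ hℓ (fun h => hℓN (Dvd.dvd.mul_right h q)) hℓN

/-! ### Intertwining -/

section Intertwine

variable {N q : ℕ} [NeZero N] [Fact q.Prime] (hqN : q ∣ N)

include hqN in
/-- `α_*` intertwines `P(TJ)` at level `N q` with `P(TJ)` at level `N`, on `p`-power torsion -/
theorem pushA_lift_TJ_dvd {p : ℕ} (hp : p.Prime) (Q : FreeRing (GoodIdx (N * q))) (k : ℕ)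
    {x : JZero (N * q)} (hx : x ∈ Tors (N * q) (p ^ k)) :
    haveI : NeZero q := ⟨(Fact.out : q.Prime).ne_zero⟩
    pushA N q (FreeRing.lift (R := AddMonoid.End (JZero (N * q)))
        (fun i : GoodIdx (N * q) => H.TJ (N * q) i.1) Q x) =
      FreeRing.lift (R := AddMonoid.End (JZero N)) (fun i : GoodIdx (N * q) => H.TJ N i.1) Q
        (pushA N q x) := by
  haveI : NeZero q := ⟨(Fact.out : q.Prime).ne_zero⟩
  have h := lift_intertwine
    ((pushA N q).comp (Tors (N * q) (p ^ k)).subtype.toAddMonoidHom)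
    (fun i : GoodIdx (N * q) => TJTors (comparisonDataAt (N * q) hp) (p ^ k) i.1)
    (fun i : GoodIdx (N * q) => H.TJ N i.1)
    (fun i v => pushA_TJ_dvd hqN i.1 i.2 (pow_pos hp.pos k) (v : JZero (N * q))
      ((Submodule.mem_torsionBy_iff _ _).1 v.2)) Q ⟨x, hx⟩
  have h2 := coe_lift_TJTors (comparisonDataAt (N * q) hp)
    (fun i : GoodIdx (N * q) => i.1) (p ^ k) Q ⟨x, hx⟩
  exact (congrArg (pushA N q) h2.symm).trans h

include hqN in
/-- `β_*` intertwines `P(TJ)` at level `N q` with `P(TJ)` at level `N`, on `p`-power torsion -/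
theorem pushB_lift_TJ_dvd {p : ℕ} (hp : p.Prime) (Q : FreeRing (GoodIdx (N * q))) (k : ℕ)
    {x : JZero (N * q)} (hx : x ∈ Tors (N * q) (p ^ k)) :
    haveI : NeZero q := ⟨(Fact.out : q.Prime).ne_zero⟩
    pushB N q (FreeRing.lift (R := AddMonoid.End (JZero (N * q)))
        (fun i : GoodIdx (N * q) => H.TJ (N * q) i.1) Q x) =
      FreeRing.lift (R := AddMonoid.End (JZero N)) (fun i : GoodIdx (N * q) => H.TJ N i.1) Q
        (pushB N q x) := by
  haveI : NeZero q := ⟨(Fact.out : q.Prime).ne_zero⟩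
  have h := lift_intertwine
    ((pushB N q).comp (Tors (N * q) (p ^ k)).subtype.toAddMonoidHom)
    (fun i : GoodIdx (N * q) => TJTors (comparisonDataAt (N * q) hp) (p ^ k) i.1)
    (fun i : GoodIdx (N * q) => H.TJ N i.1)
    (fun i v => pushB_TJ_dvd hqN i.1 i.2 (pow_pos hp.pos k) (v : JZero (N * q))
      ((Submodule.mem_torsionBy_iff _ _).1 v.2)) Q ⟨x, hx⟩
  have h2 := coe_lift_TJTors (comparisonDataAt (N * q) hp)
    (fun i : GoodIdx (N * q) => i.1) (p ^ k) Q ⟨x, hx⟩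
  exact (congrArg (pushB N q) h2.symm).trans h

/-- `P(TJ)` commutes with the Galois action -/
theorem lift_TJ_smul {M : ℕ} [NeZero M] {ι : Type*} (e : ι → Nat.Primes) (Q : FreeRing ι)
    (σ : GQ) (x : JZero M) :
    σ • (FreeRing.lift (R := AddMonoid.End (JZero M)) (fun i : ι => H.TJ M (e i)) Q x) =
      FreeRing.lift (R := AddMonoid.End (JZero M)) (fun i : ι => H.TJ M (e i)) Q (σ • x) :=
  lift_intertwine (DistribSMul.toAddMonoidHom (JZero M) σ)
    (fun i : ι => H.TJ M (e i)) (fun i : ι => H.TJ M (e i))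
    (fun i v => (GH.TJ_galois M (e i) σ v).symm) Q x

end Intertwine

/-! ### The `q`-new killer -/

section Killer

variable {N q : ℕ} [NeZero N] [Fact q.Prime] (hqN : q ∣ N)

include hqN in
/-- **R2-OUT at level `N q`, `q ∣ N`.**  A newform `g` of level `N q` has a `q`-new killer. -/
theorem exists_qNew_killer_dvd {p : ℕ} (hp : p.Prime)
    {g : CuspForm (Gamma0 (N * q)) 2} (hg : g.IsNewform) :
    haveI : NeZero q := ⟨(Fact.out : q.Prime).ne_zero⟩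
    ∃ P₀ : FreeAlgebra ℤ (GoodIdx (N * q)),
      FreeAlgebra.lift ℤ (fun ℓ : GoodIdx (N * q) => qCoeff g (ℓ.1 : ℕ)) P₀ ≠ 0 ∧
      ∀ (k : ℕ) (x : JZero (N * q)), x ∈ Tors (N * q) (p ^ k) →
        IsQNew N q (FreeRing.lift (R := AddMonoid.End (JZero (N * q)))
          (fun i : GoodIdx (N * q) => H.TJ (N * q) i.1) (toFreeRing P₀) x) := by
  haveI : NeZero q := ⟨(Fact.out : q.Prime).ne_zero⟩
  obtain ⟨P₀, hP₀a, hP₀⟩ := exists_killer_dvd (N := N) (q := q) Fact.out hg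
  refine ⟨P₀, hP₀a, fun k x hx => ?_⟩
  have hkill : FreeRing.lift (fun i : GoodIdx (N * q) => H.heckeS2 N i.1) (toFreeRing P₀) = 0 := by
    rw [lift_toFreeRing]
    exact hP₀
  constructor
  · show pushA N q _ = 0
    rw [pushA_lift_TJ_dvd hqN hp (toFreeRing P₀) k hx]
    exact killer_tors (fun i : GoodIdx (N * q) => i.1) (toFreeRing P₀) hkill hp k
      (hom_mem_Tors' (pushA N q) hx)
  · show pushB N q _ = 0
    rw [pushB_lift_TJ_dvd hqN hp (toFreeRing P₀) k hx]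
    exact killer_tors (fun i : GoodIdx (N * q) => i.1) (toFreeRing P₀) hkill hp k
      (hom_mem_Tors' (pushB N q) hx)

include hqN in
/-- **(C36) ⇒ (IKILL) at `q`**: the boundedness of the `q`-new inertia invariants of
`J₀(N q)[p^∞]` gives helper3's `InertiaKillAt (N q) p q g` for every newform `g` of level `N q`. -/
theorem inertiaKillAt_of_inertiaNewTors {p : ℕ} (hp : p.Prime)
    {g : CuspForm (Gamma0 (N * q)) 2} (hg : g.IsNewform)
    (hC : haveI : NeZero q := ⟨(Fact.out : q.Prime).ne_zero⟩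
      Fermat.Agent.S36lib.Xfer.InertiaNewTors N q p) :
    haveI : NeZero q := ⟨(Fact.out : q.Prime).ne_zero⟩
    InertiaKillAt (N * q) p q g := by
  haveI : NeZero q := ⟨(Fact.out : q.Prime).ne_zero⟩
  obtain ⟨d, hd, hC⟩ := hC
  obtain ⟨P₀, hP₀a, hP₀⟩ := exists_qNew_killer_dvd hqN hp hg
  refine ⟨(d : ℤ), killerEmb (fun ℓ : Nat.Primes => ¬ (ℓ : ℕ) ∣ N * q) P₀,
    by exact_mod_cast hd, ?_, ?_⟩
  · have h := killer_lift_killerEmb (fun ℓ : Nat.Primes => ¬ (ℓ : ℕ) ∣ N * q)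
      (fun ℓ : Nat.Primes => qCoeff g (ℓ : ℕ)) P₀
    intro h0
    apply hP₀a
    rw [← h]
    exact h0
  · intro TJ hTJ A hA k x hx hfix
    rw [heckeEval_killerEmb TJ hTJ P₀ x]
    refine hC A hA k _ ?_ (hP₀ k x hx) (fun σ hσ => ?_)
    · exact lift_TJ_mem_Tors (comparisonDataAt (N * q) hp) (fun i : GoodIdx (N * q) => i.1)
        (p ^ k) (toFreeRing P₀) hx
    · rw [lift_TJ_smul (fun i : GoodIdx (N * q) => i.1) (toFreeRing P₀) σ x, hfix σ hσ]

end Killer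

/-! ### (IKILL) from (C36) at all pairs -/

/-- **(IKILL) from (C36)** at all pairs `(N₁, q)` with `q ∥ N₁`, `q ≠ p`. -/
theorem inertiaKillTors_of_inertiaNewTors {M p : ℕ} [NeZero M] (hp : p.Prime)
    {g : CuspForm (Gamma0 M) 2} (hg : g.IsNewform)
    (H : ∀ (N₁ q : ℕ) [NeZero N₁] [NeZero q], q.Prime → q ∣ N₁ → ¬ q ^ 2 ∣ N₁ → q ≠ p →
      Fermat.Agent.S36lib.Xfer.InertiaNewTors N₁ q p) :
    InertiaKillTors M p g := by
  intro q hq hqp hfac
  have hM0 : M ≠ 0 := NeZero.ne M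
  have hq2 : q ^ 2 ∣ M := by
    have := (hq.pow_dvd_iff_le_factorization hM0 (k := 2)).2 (by rw [hfac])
    exact this
  have hq3 : ¬ q ^ 3 ∣ M := by
    intro h
    have := (hq.pow_dvd_iff_le_factorization hM0 (k := 3)).1 h
    omega
  obtain ⟨N₁, rfl⟩ : ∃ N₁, M = N₁ * q :=
    ⟨M / q, (Nat.div_mul_cancel (dvd_trans (dvd_pow_self q two_ne_zero) hq2)).symm⟩
  haveI : NeZero q := ⟨hq.ne_zero⟩
  haveI : Fact q.Prime := ⟨hq⟩
  haveI : NeZero N₁ := ⟨by
    rintro rfl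
    exact hM0 (zero_mul q)⟩
  have hqN : q ∣ N₁ := by
    rw [pow_two] at hq2
    exact (Nat.mul_dvd_mul_iff_right hq.pos).1 hq2
  have hqN2 : ¬ q ^ 2 ∣ N₁ := by
    intro h
    apply hq3
    rw [pow_succ]
    exact Nat.mul_dvd_mul_right h q
  exact inertiaKillAt_of_inertiaNewTors hqN hp hg (H N₁ q hq hqN hqN2 hqp)

end Fermat.Agent.S36lib.R2
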