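/-
S36lib / R2 / PushHeckeDvd  (helper1)   -- block R2 of S36, function level, `α`-part

The push-forward `α_* : J₀(N q) → J₀(N)` for a prime `q ∣ N` commutes with the Hecke operators
`T_ℓ`, `ℓ ∤ N q`, on Kummer representatives: the FUNCTION IDENTITY

  `Norm_α (normStd (N q) ℓ f) = normStd N ℓ (Norm_α f)`      in `FBar N`, for `f ∈ FBar (N q)`.

Same proof as helper5's `S35lib/New/PushHecke` (`q ∤ N`), with the representatives
`(1 0; N j 1)`, `j ∈ ℤ/q`, of `Γ₀(N q) \ Γ₀(N)` (`lowRep`, `S36lib/H/AlphaNormDvd`) in place of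
`alphaRep`; the swap argument is written for an ARBITRARY system of representatives.
-/
import Mathlib
import Fermat.Agent.S36lib.H.AlphaNormDvd
import Fermat.Agent.S29lib.H.HeckeNorm
import Fermat.Agent.S29lib.D.KummerHecke
import Fermat.Agent.S41lib.HC.CommuteCores

set_option autoImplicit false
set_option linter.style.haveILetI false
set_option linter.unusedSectionVars false

noncomputable section

namespace Fermat.Agent.S36lib.R2

open UpperHalfPlane Polynomial Matrix.SpecialLinearGroup Fermat.Agent.ProgramR Module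
  CongruenceSubgroup ModularForm ModularCurve
open Fermat.Agent.ProgramR.BarField
open Fermat.Agent.S16lib.LH Fermat.Agent.S29lib.H Fermat.Agent.S41lib.HC Fermat.Agent.S36lib.H
open P2MW.S_ModularForm_heckeT_slash_eq_self_of_mem_Gamma0.ModularForm.HeckeSlashInvariance
open scoped MatrixGroups

/-! ### `(1 0; N j 1)`, `j ∈ ℤ/q`, is a system of representatives of `Γ₀(N q) \ Γ₀(N)` -/

section Transversal

variable {N q : ℕ} [NeZero N] [Fact q.Prime]

theorem isRightTransversal_lowRep (hqN : q ∣ N) :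
    haveI : NeZero q := ⟨(Fact.out : q.Prime).ne_zero⟩
    IsRightTransversal (fun j : ZMod q => lowRep N j) q := by
  haveI : NeZero q := ⟨(Fact.out : q.Prime).ne_zero⟩
  have hN0 : (N : ℤ) ≠ 0 := by exact_mod_cast NeZero.ne N
  refine ⟨fun x y h => ?_, fun g => ?_⟩
  · rw [Subgroup.coe_mul, Subgroup.coe_inv, coe_lowRep, coe_lowRep, lowMat_inv, lowMat_mul,
      Gamma0_mem, lowMat_apply_one_zero, ZMod.intCast_zmod_eq_zero_iff_dvd] at h
    have h4 : (q : ℤ) ∣ (x.val : ℤ) - (y.val : ℤ) := by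
      obtain ⟨t, ht⟩ := h
      refine ⟨t, ?_⟩
      apply mul_left_cancel₀ hN0
      push_cast at ht
      linear_combination ht
    have h5 : ((x.val : ℤ) : ZMod q) = ((y.val : ℤ) : ZMod q) := by
      rw [← sub_eq_zero, ← Int.cast_sub, ZMod.intCast_zmod_eq_zero_iff_dvd]
      exact h4
    push_cast at h5
    rwa [ZMod.natCast_zmod_val, ZMod.natCast_zmod_val] at h5
  · -- `x = - (c / N) d`
    set a : ℤ := (g : SL(2, ℤ)) 0 0 with ha
    set d : ℤ := (g : SL(2, ℤ)) 1 1 with hd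
    refine ⟨-((lowC g : ℤ) : ZMod q) * ((d : ℤ) : ZMod q), ?_⟩
    set x : ZMod q := -((lowC g : ℤ) : ZMod q) * ((d : ℤ) : ZMod q) with hx
    have e : ((lowRep N x * g : Gamma0 N) : SL(2, ℤ)) =
        lowMat ((N : ℤ) * (x.val : ℤ)) * (g : SL(2, ℤ)) * lowMat 0 := by
      rw [lowMat_zero, mul_one, Subgroup.coe_mul, coe_lowRep]
    rw [Gamma0_mem, ZMod.intCast_zmod_eq_zero_iff_dvd, e, lowMat_mul_mul_apply_one_zero,
      mul_zero, add_zero, ← N_mul_lowC g]
    have ht : (q : ℤ) ∣ (x.val : ℤ) * a + lowC g := by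
      rw [← ZMod.intCast_zmod_eq_zero_iff_dvd]
      push_cast
      rw [ZMod.natCast_zmod_val, hx]
      have h := a_mul_d hqN g
      rw [← ha, ← hd] at h
      linear_combination (-((lowC g : ℤ) : ZMod q)) * h
    obtain ⟨t, ht⟩ := ht
    refine ⟨t, ?_⟩
    push_cast
    linear_combination (N : ℤ) * ht

end Transversal

/-! ### The swap for an arbitrary system of representatives -/

section Swap

variable {N q ℓ : ℕ} [NeZero N] [Fact q.Prime] [Fact ℓ.Prime] {ι : Type*} [Fintype ι]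
  (a : ι → ↥(Gamma0 N)) (htr : IsRightTransversal a q) (hℓN : ¬ ℓ ∣ N)
  (hℓNq : ¬ ℓ ∣ N * q)

/-- the representative `a x` as an element of `GL₂(ℝ)` -/
def gRep (x : ι) : GL (Fin 2) ℝ := (mapGL ℝ ((a x : ↥(Gamma0 N)) : SL(2, ℤ)) : GL (Fin 2) ℝ)

theorem gRep_det_pos (x : ι) : 0 < (gRep a x).det.val := (isIntMat_mapGL _).det_pos

include htr hℓN in
/-- existence part of the coset comparison: `h_y g_x = c · g_{x'} h_{y'}` with `c ∈ Γ₀(N q)` -/
theorem exists_swap (x : ι) (y : OnePoint (ZMod ℓ)) :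
    ∃ (x' : ι) (c : SL(2, ℤ)), c ∈ Gamma0 (N * q) ∧
      heckeRep ℓ y * gRep a x = (mapGL ℝ c : GL (Fin 2) ℝ) *
        (gRep a x' * heckeRep ℓ (tPerm ℓ (a x) y)) := by
  obtain ⟨x', hx'⟩ := htr.surj (tCoc hℓN (a x) y)⁻¹
  refine ⟨x', _, (⟨_, hx'⟩ : ↥(Gamma0 (N * q)))⁻¹.2, ?_⟩
  show heckeRep ℓ y * (mapGL ℝ ((a x : ↥(Gamma0 N)) : SL(2, ℤ)) : GL (Fin 2) ℝ) =
    (mapGL ℝ (((⟨_, hx'⟩ : ↥(Gamma0 (N * q)))⁻¹ : ↥(Gamma0 (N * q))) : SL(2, ℤ)) :
      GL (Fin 2) ℝ) *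
    ((mapGL ℝ ((a x' : ↥(Gamma0 N)) : SL(2, ℤ)) : GL (Fin 2) ℝ) *
      heckeRep ℓ (tPerm ℓ (a x) y))
  rw [tCoc_rel hℓN, ← mul_assoc, ← map_mul]
  congr 2
  simp

/-- the map `(x, y) ↦ (y', x')` -/
def swapFun (p : ι × OnePoint (ZMod ℓ)) : OnePoint (ZMod ℓ) × ι :=
  (tPerm ℓ (a p.1) p.2, (exists_swap a htr hℓN p.1 p.2).choose)

theorem swapFun_spec (p : ι × OnePoint (ZMod ℓ)) :
    ∃ c : SL(2, ℤ), c ∈ Gamma0 (N * q) ∧
      heckeRep ℓ p.2 * gRep a p.1 = (mapGL ℝ c : GL (Fin 2) ℝ) *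
        (gRep a (swapFun a htr hℓN p).2 * heckeRep ℓ (swapFun a htr hℓN p).1) :=
  (exists_swap a htr hℓN p.1 p.2).choose_spec

include htr hℓNq in
/-- uniqueness part of the coset comparison -/
theorem swap_unique {c c' : SL(2, ℤ)} (hc : c ∈ Gamma0 (N * q)) (hc' : c' ∈ Gamma0 (N * q))
    {x x' : ι} {y y' : OnePoint (ZMod ℓ)}
    (hcc : (mapGL ℝ c : GL (Fin 2) ℝ) * (heckeRep ℓ y * gRep a x) =
      (mapGL ℝ c' : GL (Fin 2) ℝ) * (heckeRep ℓ y' * gRep a x')) : x = x' ∧ y = y' := by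
  have h1 : heckeRep ℓ y * (mapGL ℝ (((a x * (a x')⁻¹ : ↥(Gamma0 N)) :
      SL(2, ℤ))) : GL (Fin 2) ℝ) =
      (mapGL ℝ (c⁻¹ * c') : GL (Fin 2) ℝ) * heckeRep ℓ y' := by
    have h0 : heckeRep ℓ y * gRep a x =
        (mapGL ℝ c : GL (Fin 2) ℝ)⁻¹ * ((mapGL ℝ c' : GL (Fin 2) ℝ) *
          (heckeRep ℓ y' * gRep a x')) := by
      rw [← hcc, inv_mul_cancel_left]
    rw [Subgroup.coe_mul, Subgroup.coe_inv, map_mul, map_mul, map_inv, map_inv, ← mul_assoc]
    have h0' : heckeRep ℓ y *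
        (mapGL ℝ ((a x : ↥(Gamma0 N)) : SL(2, ℤ)) : GL (Fin 2) ℝ) =
        (mapGL ℝ c : GL (Fin 2) ℝ)⁻¹ * ((mapGL ℝ c' : GL (Fin 2) ℝ) *
          (heckeRep ℓ y' *
            (mapGL ℝ ((a x' : ↥(Gamma0 N)) : SL(2, ℤ)) : GL (Fin 2) ℝ))) := h0
    rw [h0']
    simp only [mul_assoc, mul_inv_cancel, mul_one]
  have hcc' : c⁻¹ * c' ∈ Gamma0 (N * q) := mul_mem (inv_mem hc) hc'
  have h2 := mem_Gamma0_of_heckeRep_rel hℓNq hcc' h1
  have hx : x = x' := htr.inj x x' h2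
  subst hx
  refine ⟨rfl, ?_⟩
  have h3 : (mapGL ℝ c : GL (Fin 2) ℝ) * heckeRep ℓ y =
      (mapGL ℝ c' : GL (Fin 2) ℝ) * heckeRep ℓ y' := by
    rw [← mul_assoc, ← mul_assoc] at hcc
    exact mul_right_cancel hcc
  exact (heckeRep_coset_unique h3).1

include hℓNq in
theorem swapFun_injective : Function.Injective (swapFun a htr hℓN) := by
  rintro ⟨x, y⟩ ⟨x', y'⟩ h
  obtain ⟨c, hc, hrel⟩ := swapFun_spec a htr hℓN (x, y)
  obtain ⟨c', hc', hrel'⟩ := swapFun_spec a htr hℓN (x', y')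
  rw [h] at hrel
  simp only at hrel hrel'
  have hcc : (mapGL ℝ c⁻¹ : GL (Fin 2) ℝ) * (heckeRep ℓ y * gRep a x) =
      (mapGL ℝ c'⁻¹ : GL (Fin 2) ℝ) * (heckeRep ℓ y' * gRep a x') := by
    rw [hrel, hrel', map_inv, map_inv, inv_mul_cancel_left, inv_mul_cancel_left]
  obtain ⟨h1, h2⟩ := swap_unique a htr hℓNq (inv_mem hc) (inv_mem hc') hcc
  rw [h1, h2]

include hℓNq in
theorem swapFun_bijective : Function.Bijective (swapFun a htr hℓN) := by
  rw [Fintype.bijective_iff_injective_and_card]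
  exact ⟨swapFun_injective a htr hℓN hℓNq, by rw [Fintype.card_prod, Fintype.card_prod, mul_comm]⟩

theorem heckeRep_det_pos (y : OnePoint (ZMod ℓ)) : 0 < (heckeRep ℓ y).det.val :=
  haveI : NeZero ℓ := ⟨(Fact.out : ℓ.Prime).ne_zero⟩
  (isIntMat_heckeRep ℓ y).det_pos

include htr hℓN hℓNq in
/-- the two double products of conjugates coincide -/
theorem prod_swap (k : WH0.FunField (Gamma0 (N * q))) :
    ∏ x : ι, merComp (gRep a x) (gRep_det_pos a x)
        (∏ y : OnePoint (ZMod ℓ), merComp (heckeRep ℓ y) (heckeRep_det_pos y)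
          (toMer (Gamma0 (N * q)) k)) =
      ∏ y : OnePoint (ZMod ℓ), merComp (heckeRep ℓ y) (heckeRep_det_pos y)
        (∏ x : ι, merComp (gRep a x) (gRep_det_pos a x)
          (toMer (Gamma0 (N * q)) k)) := by
  set F : Mer := toMer (Gamma0 (N * q)) k with hF
  have hL : ∀ x : ι, merComp (gRep a x) (gRep_det_pos a x)
      (∏ y : OnePoint (ZMod ℓ), merComp (heckeRep ℓ y) (heckeRep_det_pos y) F) =
      ∏ y : OnePoint (ZMod ℓ), merComp (heckeRep ℓ y * gRep a x)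
        (det_pos_mul (heckeRep_det_pos y) (gRep_det_pos a x)) F := by
    intro x
    rw [map_prod]
    exact Finset.prod_congr rfl fun y _ => merComp_comp _ _ F
  have hR : ∀ y : OnePoint (ZMod ℓ), merComp (heckeRep ℓ y) (heckeRep_det_pos y)
      (∏ x : ι, merComp (gRep a x) (gRep_det_pos a x) F) =
      ∏ x : ι, merComp (gRep a x * heckeRep ℓ y)
        (det_pos_mul (gRep_det_pos a x) (heckeRep_det_pos y)) F := by
    intro y
    rw [map_prod]
    exact Finset.prod_congr rfl fun x _ => merComp_comp _ _ F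
  simp only [hL, hR]
  rw [← Fintype.prod_prod_type', ← Fintype.prod_prod_type']
  refine Fintype.prod_bijective (swapFun a htr hℓN) (swapFun_bijective a htr hℓN hℓNq) _ _ ?_
  intro p
  obtain ⟨c, hc, hrel⟩ := swapFun_spec a htr hℓN p
  rw [merComp_eq_of_eq _ (det_pos_mul (isIntMat_mapGL c).det_pos
    (det_pos_mul (gRep_det_pos a _) (heckeRep_det_pos _))) hrel,
    ← merComp_comp (isIntMat_mapGL c).det_pos
      (det_pos_mul (gRep_det_pos a _) (heckeRep_det_pos _)), hF,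
    merComp_toMer_of_mem (Gamma0 (N * q)) hc k]

end Swap

/-! ### The norm identity along `α`, `q ∣ N` -/

section Norm

variable {N q ℓ : ℕ} [NeZero N] [Fact q.Prime] [Fact ℓ.Prime] (hqN : q ∣ N) (hℓN : ¬ ℓ ∣ N)
  (hℓNq : ¬ ℓ ∣ N * q)

variable {L : Type*} [Field L] [Algebra ℚ L] (e : L →+* ℂ)

include hqN hℓN hℓNq e in
/-- **`Norm_α ∘ (Kummer representative of T_ℓ at level N q) =
(Kummer representative of T_ℓ at level N) ∘ Norm_α`, `q ∣ N`.** -/
theorem norm_alpha_norm_alpha_beta_dvd (f : FBar L (N * q)) :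
    haveI : NeZero ℓ := ⟨(Fact.out : ℓ.Prime).ne_zero⟩
    haveI : NeZero q := ⟨(Fact.out : q.Prime).ne_zero⟩
    @Algebra.norm (FBar L N) (FBar L (N * q)) _ _ (heckeAlphaBar L N q).toRingHom.toAlgebra
        (@Algebra.norm (FBar L (N * q)) (FBar L (N * q * ℓ)) _ _
          (heckeAlphaBar L (N * q) ℓ).toRingHom.toAlgebra (heckeBetaBar L (N * q) ℓ f)) =
      @Algebra.norm (FBar L N) (FBar L (N * ℓ)) _ _ (heckeAlphaBar L N ℓ).toRingHom.toAlgebra
        (heckeBetaBar L N ℓ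
          (@Algebra.norm (FBar L N) (FBar L (N * q)) _ _
            (heckeAlphaBar L N q).toRingHom.toAlgebra f)) := by
  haveI : NeZero ℓ := ⟨(Fact.out : ℓ.Prime).ne_zero⟩
  haveI : NeZero q := ⟨(Fact.out : q.Prime).ne_zero⟩
  have hinj : Function.Injective ((toMer (Gamma0 N)).comp (ΦBar N e)) :=
    ((toMer (Gamma0 N)).comp (ΦBar N e)).injective
  apply hinj
  show toMer (Gamma0 N) (ΦBar N e _) = toMer (Gamma0 N) (ΦBar N e _)
  rw [toMer_norm_alpha_dvd e hqN, toMer_norm_alpha_beta e hℓN]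
  simp only [Transversal.emb_apply]
  rw [toMer_norm_alpha_dvd e hqN f]
  simp only [Transversal.emb_apply]
  have h1 := toMer_norm_alpha_beta e hℓNq f
  rw [h1]
  exact prod_swap (fun j : ZMod q => lowRep N j) (isRightTransversal_lowRep hqN) hℓN hℓNq
    (ΦBar (N * q) e f)

end Norm

end Fermat.Agent.S36lib.R2
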